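import Mathlib

/-!
# S16, upper bound (helper6): interfaces for the general-prime toolkit

Everything here is a `Prop`-valued definition (no proofs), so that the pieces can be proved in
parallel.  Route = findings #197 (norm trick) + #153 (trace identities).

* `HasExp h F b`            : `F z = ∑ b n e(n z / h)` on the upper half plane.
* `SturmModStatement`       : level-one Sturm bound modulo a prime (any ring hom `A → κ`, `κ` a field).
* `NormMachineStatement`    : the norm/valence inequality for a form `Y` on a finite-index subgroup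
                              all of whose `SL₂(ℤ)`-translates have expansions with coefficients in
                              `A` that are nonzero modulo `φ`.
* `UpStatement`, `UpSqStatement` : `U_p` preserves `M₂(Γ₀(p))` and `U_p² = 1` there.
* `TraceSqStatement`        : `p H² + U_p((U_p H)²) = a₀² (p+1) E₄` (trace of `H²` to level one).
* `NoUnitStatement ℓ r C`   : for primes `p` with `C p`, a weight-2 form on `Γ₀(p)` with integer
                              q-expansion whose higher coefficients are divisible by `ℓ ^ r` has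
                              constant term divisible by `ℓ`.
* `UpperBoundStatement`     : the assembled upper bound `m ∣ 24 / gcd (p - 1) 12`.
-/

namespace Fermat.Agent.H6.S16UB

open UpperHalfPlane CongruenceSubgroup
open scoped MatrixGroups ModularForm Real

/-- `F z = ∑_n b n · e(n z / h)` for all `z` in the upper half plane
(`Function.Periodic.qParam h z = exp (2 π i z / h)`). -/
def HasExp (h : ℕ) (F : ℍ → ℂ) (b : ℕ → ℂ) : Prop :=
  ∀ z : ℍ, HasSum (fun n : ℕ => b n * Function.Periodic.qParam (h : ℝ) (z : ℂ) ^ n) (F z)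

/-- The operator `U_p` on formal power series: `(U_p f)_n = f_{p n}`. -/
noncomputable def upSeries {R : Type*} [Semiring R] (p : ℕ) (f : PowerSeries R) : PowerSeries R :=
  PowerSeries.mk fun n => PowerSeries.coeff (p * n) f

/-- `∑_{n ≥ 1} σ_k(n) qⁿ` as an integral power series. -/
noncomputable def sigmaSeries (k : ℕ) : PowerSeries ℤ :=
  PowerSeries.mk fun n => if n = 0 then 0 else (ArithmeticFunction.sigma k n : ℤ)

/-- (STURM) Level-one Sturm bound modulo a prime: a level-one form of weight `k` whose q-expansion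
has coefficients in a subring `A ⊆ ℂ` and is nonzero modulo `φ : A →+* κ` (`κ` a field) has
reduction of order `≤ k / 12`. -/
def SturmModStatement : Prop :=
  ∀ (A : Subring ℂ) (κ : Type) [Field κ] (φ : A →+* κ) (k : ℕ) (f : ModularForm 𝒮ℒ (k : ℤ))
    (c : PowerSeries A),
    qExpansion 1 (⇑f) = c.map A.subtype → c.map φ ≠ 0 → 12 * (c.map φ).order ≤ (k : ℕ∞)

/-- (NORM) The norm/valence inequality.  `Y` is a form of weight `k` on a finite-index subgroup `Γ`
of `SL₂(ℤ)`; every translate `Y ∣ γ` has an expansion in `e(z / h)` with coefficients `b γ` in `A`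
which is nonzero modulo `φ`.  Then for every family `S` of pairwise `Γ`-inequivalent `γ`s
(`Γ γ ≠ Γ γ'`) the orders of the reductions satisfy `12 ∑_{γ ∈ S} ord ≤ h · k · [SL₂(ℤ) : Γ]`. -/
def NormMachineStatement : Prop :=
  ∀ (Γ : Subgroup SL(2, ℤ)) [Γ.FiniteIndex] (k : ℕ) (Y : ModularForm Γ (k : ℤ)) (h : ℕ), 0 < h →
    ∀ (A : Subring ℂ) (κ : Type) [Field κ] (φ : A →+* κ) (b : SL(2, ℤ) → PowerSeries A),
      (∀ γ : SL(2, ℤ), HasExp h (⇑Y ∣[(k : ℤ)] γ)
        (fun n => ((PowerSeries.coeff n (b γ) : A) : ℂ))) →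
      (∀ γ, (b γ).map φ ≠ 0) →
      ∀ S : Finset SL(2, ℤ), (∀ γ ∈ S, ∀ γ' ∈ S, γ * γ'⁻¹ ∈ Γ → γ = γ') →
        12 * ∑ γ ∈ S, ((b γ).map φ).order ≤ ((h * (k * Γ.index) : ℕ) : ℕ∞)

/-- (UP) `U_p` preserves `M₂(Γ₀(p))` (it is minus the Fricke involution). -/
def UpStatement : Prop :=
  ∀ (p : ℕ), p.Prime → ∀ H : ModularForm (Gamma0 p) 2,
    ∃ K : ModularForm (Gamma0 p) 2, qExpansion 1 (⇑K) = upSeries p (qExpansion 1 (⇑H))

/-- (UP²) `U_p² = 1` on `M₂(Γ₀(p))`. -/
def UpSqStatement : Prop :=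
  ∀ (p : ℕ), p.Prime → ∀ (H : ModularForm (Gamma0 p) 2) (n : ℕ),
    PowerSeries.coeff (p * (p * n)) (qExpansion 1 (⇑H)) = PowerSeries.coeff n (qExpansion 1 (⇑H))

/-- (TRSQ) Trace of `H²` to level one: `p H² + U_p((U_p H)²) = a₀(H)² (p + 1) E₄`,
with `E₄ = 1 + 240 ∑ σ₃(n) qⁿ`. -/
def TraceSqStatement : Prop :=
  ∀ (p : ℕ), p.Prime → ∀ H : ModularForm (Gamma0 p) 2,
    (p : PowerSeries ℂ) * qExpansion 1 (⇑H) ^ 2
        + upSeries p (upSeries p (qExpansion 1 (⇑H)) ^ 2)
      = PowerSeries.C ((PowerSeries.coeff 0 (qExpansion 1 (⇑H))) ^ 2 * (p + 1))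
          * (1 + 240 * (sigmaSeries 3).map (Int.castRingHom ℂ))

/-- The shape of all "no unit constant term" statements. -/
def NoUnitStatement (ℓ r : ℕ) (C : ℕ → Prop) : Prop :=
  ∀ (p : ℕ), p.Prime → C p →
    ∀ (H : ModularForm (Gamma0 p) 2) (a : ℕ → ℤ),
      (∀ n, PowerSeries.coeff n (qExpansion 1 (⇑H)) = (a n : ℂ)) →
      (∀ n, 1 ≤ n → ((ℓ ^ r : ℕ) : ℤ) ∣ a n) → (ℓ : ℤ) ∣ a 0

/-- (UB5) `ℓ ≥ 5` (including `ℓ = p`): norm trick with `E₄` (`ℓ ≥ 7`) or `E₆` (`ℓ = 5`). -/
def NoUnitGeFiveStatement : Prop :=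
  ∀ ℓ : ℕ, ℓ.Prime → 5 ≤ ℓ → NoUnitStatement ℓ 1 (fun _ => True)

/-- (UB9) `ℓ = 3`, modulo 9, `p ≠ 3`: norm trick with `(p² H² - a₀² E₄) / 3`. -/
def NoUnitNineStatement : Prop := NoUnitStatement 3 2 (fun p => p ≠ 3)

/-- (UB3) `ℓ = 3`, modulo 3, `p ≡ 1 mod 3`: trace identity. -/
def NoUnitThreeStatement : Prop := NoUnitStatement 3 1 (fun p => p % 3 = 1)

/-- (UB4) `ℓ = 2`, modulo 4, `p ≡ 1 mod 4`: trace identity. -/
def NoUnitFourStatement : Prop := NoUnitStatement 2 2 (fun p => p % 4 = 1)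

/-- (UB8) `ℓ = 2`, modulo 8, `p ≡ 3 mod 4`, `p ≥ 5` (= helper1's `NoUnitModEightStatement`). -/
def NoUnitEightStatement : Prop := NoUnitStatement 2 3 (fun p => p % 4 = 3 ∧ 5 ≤ p)

/-- The assembled upper bound: if all higher coefficients are divisible by `m` and the constant
term is prime to `m`, then `m ∣ 24 / gcd (p - 1) 12`. -/
def UpperBoundStatement : Prop :=
  ∀ (p : ℕ), p.Prime → 5 ≤ p →
    ∀ (H : ModularForm (Gamma0 p) 2) (a : ℕ → ℤ) (m : ℕ),
      (∀ n, PowerSeries.coeff n (qExpansion 1 (⇑H)) = (a n : ℂ)) →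
      (∀ n, 1 ≤ n → (m : ℤ) ∣ a n) → IsCoprime (a 0) (m : ℤ) →
      m ∣ 24 / Nat.gcd (p - 1) 12

end Fermat.Agent.H6.S16UB
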