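/-
P-S16 / UB-STURM (helper6): level-one Sturm bound modulo a prime.
Main result: `Fermat.Agent.H6.S16UB.sturmMod : SturmModStatement`.
Also: integral q-expansions `qExpansion_E₄_eq`, `qExpansion_E₆_eq`,
`qExpansion_discriminant_eq_deltaSeries` (Δ has integer coefficients).
-/
import Mathlib
import Fermat.Agent.H98.INT4_LevelOne
import Fermat.Agent.H6.S16UB.Interfaces

set_option autoImplicit false

open UpperHalfPlane ModularForm EisensteinSeries
open scoped MatrixGroups

namespace Fermat.Agent.H6.S16UB

theorem coeff_intCast_mul {R : Type*} [Ring R] (a : ℤ) (f : PowerSeries R) (m : ℕ) :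
    PowerSeries.coeff m ((a : PowerSeries R) * f) = (a : R) * PowerSeries.coeff m f := by
  have : (a : PowerSeries R) = PowerSeries.C (a : R) := by
    simp
  rw [this, PowerSeries.coeff_C_mul]

theorem qExpansion_E₄_eq :
    qExpansion 1 E₄ = (1 + ((240 : ℤ) : PowerSeries ℤ) * sigmaSeries 3).map (Int.castRingHom ℂ) := by
  ext m
  rw [PowerSeries.coeff_map, E_qExpansion_coeff _ ⟨2, rfl⟩]
  have hb : bernoulli 4 = -1 / 30 := by decide +kernel
  rw [map_add, coeff_intCast_mul]
  simp only [sigmaSeries, PowerSeries.coeff_mk, PowerSeries.coeff_one]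
  rcases eq_or_ne m 0 with rfl | hm
  · simp
  · simp only [hm, if_false, hb]
    push_cast
    norm_num

theorem qExpansion_E₆_eq :
    qExpansion 1 E₆ = (1 - ((504 : ℤ) : PowerSeries ℤ) * sigmaSeries 5).map (Int.castRingHom ℂ) := by
  ext m
  rw [PowerSeries.coeff_map, E_qExpansion_coeff _ ⟨3, rfl⟩]
  have hb : bernoulli 6 = 1 / 42 := by decide +kernel
  rw [map_sub, coeff_intCast_mul]
  simp only [sigmaSeries, PowerSeries.coeff_mk, PowerSeries.coeff_one]
  rcases eq_or_ne m 0 with rfl | hm
  · simp
  · simp only [hm, if_false, hb]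
    push_cast
    norm_num

/-- `5 d³ + 7 d⁵` is divisible by 12. -/
theorem twelve_dvd_aux (d : ℤ) : (12 : ℤ) ∣ 5 * d ^ 3 + 7 * d ^ 5 := by
  have h : ∀ x : ZMod 12, 5 * x ^ 3 + 7 * x ^ 5 = 0 := by decide
  have h2 : ((5 * d ^ 3 + 7 * d ^ 5 : ℤ) : ZMod 12) = 0 := by
    push_cast
    exact h _
  exact (ZMod.intCast_zmod_eq_zero_iff_dvd _ 12).mp h2

theorem twelve_dvd_sigma (n : ℕ) :
    (12 : ℤ) ∣ 5 * (ArithmeticFunction.sigma 3 n : ℤ) + 7 * (ArithmeticFunction.sigma 5 n : ℤ) := by
  rw [ArithmeticFunction.sigma_apply, ArithmeticFunction.sigma_apply]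
  push_cast
  rw [Finset.mul_sum, Finset.mul_sum, ← Finset.sum_add_distrib]
  exact Finset.dvd_sum fun d _ => twelve_dvd_aux d

/-- The series `(5 A + 7 B) / 12`. -/
noncomputable def qSeries : PowerSeries ℤ :=
  PowerSeries.mk fun n =>
    (5 * PowerSeries.coeff n (sigmaSeries 3) + 7 * PowerSeries.coeff n (sigmaSeries 5)) / 12

theorem twelve_mul_qSeries :
    ((12 : ℤ) : PowerSeries ℤ) * qSeries
      = ((5 : ℤ) : PowerSeries ℤ) * sigmaSeries 3 + ((7 : ℤ) : PowerSeries ℤ) * sigmaSeries 5 := by
  ext n
  rw [coeff_intCast_mul, map_add, coeff_intCast_mul, coeff_intCast_mul]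
  simp only [qSeries, PowerSeries.coeff_mk]
  apply Int.mul_ediv_cancel'
  simp only [sigmaSeries, PowerSeries.coeff_mk]
  split_ifs
  · simp
  · exact twelve_dvd_sigma n

/-- The integral q-expansion of `Δ`. -/
noncomputable def deltaSeries : PowerSeries ℤ :=
  qSeries + ((100 : ℤ) : PowerSeries ℤ) * sigmaSeries 3 ^ 2
    - ((147 : ℤ) : PowerSeries ℤ) * sigmaSeries 5 ^ 2
    + ((8000 : ℤ) : PowerSeries ℤ) * sigmaSeries 3 ^ 3

theorem deltaSeries_mul :
    ((1728 : ℤ) : PowerSeries ℤ) * deltaSeries
      = (1 + ((240 : ℤ) : PowerSeries ℤ) * sigmaSeries 3) ^ 3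
        - (1 - ((504 : ℤ) : PowerSeries ℤ) * sigmaSeries 5) ^ 2 := by
  have h := twelve_mul_qSeries
  have e : ((1728 : ℤ) : PowerSeries ℤ) * deltaSeries
      = ((144 : ℤ) : PowerSeries ℤ) * (((12 : ℤ) : PowerSeries ℤ) * qSeries)
        + ((1728 : ℤ) : PowerSeries ℤ) * (((100 : ℤ) : PowerSeries ℤ) * sigmaSeries 3 ^ 2
          - ((147 : ℤ) : PowerSeries ℤ) * sigmaSeries 5 ^ 2
          + ((8000 : ℤ) : PowerSeries ℤ) * sigmaSeries 3 ^ 3) := by
    rw [deltaSeries]
    push_cast
    ring
  rw [e, h]
  push_cast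
  ring

theorem qExpansion_discriminant_eq_deltaSeries :
    qExpansion 1 ModularForm.discriminant = deltaSeries.map (Int.castRingHom ℂ) := by
  rw [Fermat.Agent.H98.qExpansion_discriminant_eq, qExpansion_E₄_eq, qExpansion_E₆_eq,
    ← map_pow, ← map_pow, ← map_sub, ← deltaSeries_mul, map_mul]
  ext n
  simp only [PowerSeries.coeff_smul, smul_eq_mul, map_intCast, coeff_intCast_mul]
  push_cast
  ring


theorem exists_unit_form (k : ℕ) (hk : Even k) (hk2 : k ≠ 2) :
    ∃ (G : ModularForm 𝒮ℒ (k : ℤ)) (P : PowerSeries ℤ),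
      qExpansion 1 (⇑G) = P.map (Int.castRingHom ℂ) ∧ PowerSeries.coeff 0 P = 1 := by
  have key : ∃ P, Fermat.Agent.H98.IsGoodSeries (k : ℤ) P ∧ P.coeff 0 = 1 := by
    rcases Nat.eq_zero_or_pos k with h0 | hpos
    · subst h0
      exact ⟨1, Fermat.Agent.H98.isGoodSeries_one.congr_weight (by simp), by simp⟩
    · have h4 : 4 ≤ k := by
        obtain ⟨m, hm⟩ := hk
        omega
      exact Fermat.Agent.H98.exists_isGoodSeries_coeff_zero_eq_one (by exact_mod_cast h4)
        (by exact_mod_cast hk)
  obtain ⟨_, ⟨⟨P, rfl⟩, G, hG⟩, h1⟩ := key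
  refine ⟨G, P, hG, ?_⟩
  rw [PowerSeries.coeff_map] at h1
  have h2 : ((PowerSeries.coeff 0 P : ℤ) : ℂ) = 1 := h1
  exact_mod_cast h2

/-- Casting an integral power series into a subring of `ℂ` and then into `ℂ`. -/
theorem map_subtype_map_intCast (A : Subring ℂ) (P : PowerSeries ℤ) :
    (P.map (Int.castRingHom A)).map A.subtype = P.map (Int.castRingHom ℂ) := by
  ext n
  simp

theorem map_subtype_injective (A : Subring ℂ) :
    Function.Injective (PowerSeries.map A.subtype) := by
  intro x y h
  ext n
  have := congrArg (PowerSeries.coeff n) h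
  simpa using this

/-- `Δ = X * U` with `U` a unit of `ℤ⟦X⟧`. -/
theorem exists_deltaSeries_factor :
    ∃ U V : PowerSeries ℤ, deltaSeries = PowerSeries.X * U ∧ U * V = 1 := by
  have h0 : PowerSeries.coeff 0 deltaSeries = 0 := by
    have h := congrArg (PowerSeries.coeff 0) qExpansion_discriminant_eq_deltaSeries
    rw [PowerSeries.coeff_map] at h
    have h' : (qExpansion 1 ModularForm.discriminant).coeff 0 = 0 :=
      PowerSeries.coeff_of_lt_order _ (by rw [discriminant_qExpansion_order]; exact one_pos)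
    rw [h'] at h
    have h2 : ((PowerSeries.coeff 0 deltaSeries : ℤ) : ℂ) = 0 := h.symm
    exact_mod_cast h2
  have h1 : PowerSeries.coeff 1 deltaSeries = 1 := by
    have h := congrArg (PowerSeries.coeff 1) qExpansion_discriminant_eq_deltaSeries
    rw [PowerSeries.coeff_map, discriminant_qExpansion_coeff_one] at h
    have h2 : ((PowerSeries.coeff 1 deltaSeries : ℤ) : ℂ) = 1 := h.symm
    exact_mod_cast h2
  set U : PowerSeries ℤ := PowerSeries.mk fun n => PowerSeries.coeff (n + 1) deltaSeries with hU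
  have hX : deltaSeries = PowerSeries.X * U := by
    ext n
    rcases n with _ | n
    · simp [h0]
    · rw [PowerSeries.coeff_succ_X_mul, hU, PowerSeries.coeff_mk]
  have hUu : IsUnit U := by
    rw [PowerSeries.isUnit_iff_constantCoeff]
    have : PowerSeries.constantCoeff U = 1 := by
      rw [← PowerSeries.coeff_zero_eq_constantCoeff_apply, hU, PowerSeries.coeff_mk]
      simpa using h1
    rw [this]
    exact isUnit_one
  obtain ⟨V, hV⟩ := hUu.exists_right_inv
  exact ⟨U, V, hX, hV⟩


theorem sturm_core (A : Subring ℂ) (κ : Type) [Field κ] (φ : A →+* κ) :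
    ∀ (k : ℕ) (f : ModularForm 𝒮ℒ (k : ℤ)) (c : PowerSeries A),
      qExpansion 1 (⇑f) = c.map A.subtype →
      (∀ n, 12 * n ≤ k → φ (PowerSeries.coeff n c) = 0) → c.map φ = 0 := by
  intro k
  induction k using Nat.strong_induction_on with
  | _ k ih =>
  intro f c hfc hvan
  have hc0 : φ (PowerSeries.coeff 0 c) = 0 := hvan 0 (by simp)
  -- trivial case: f = 0
  by_cases hzero : f = 0
  · have : c = 0 := by
      apply map_subtype_injective A
      rw [← hfc, hzero]
      simp [qExpansion_zero]
    rw [this]; simp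
  -- otherwise k is even and k ≠ 2
  have hk_even : Even k := by
    by_contra h
    exact hzero (ModularForm.levelOne_odd_weight_eq_zero
      (by exact_mod_cast Nat.not_even_iff_odd.mp h) f)
  have hk2 : k ≠ 2 := by
    rintro rfl
    exact hzero (rank_zero_iff_forall_zero.mp levelOne_weight_two_rank_zero f)
  obtain ⟨G, P, hG, hP0⟩ := exists_unit_form k hk_even hk2
  obtain ⟨U, V, hX, hUV⟩ := exists_deltaSeries_factor
  set a₀ : A := PowerSeries.coeff 0 c with ha₀
  set PA : PowerSeries A := P.map (Int.castRingHom A) with hPA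
  set cg : PowerSeries A := c - PowerSeries.C a₀ * PA with hcg
  set g : ModularForm 𝒮ℒ (k : ℤ) := f - (a₀ : ℂ) • G with hgdef
  have hg : qExpansion 1 (⇑g) = cg.map A.subtype := by
    rw [hgdef, FunLike.coe_sub, ModularForm.qExpansion_sub one_pos one_mem_strictPeriods_SL,
      FunLike.coe_smul, ModularForm.qExpansion_smul one_pos one_mem_strictPeriods_SL, hfc, hG,
      hcg, map_sub, map_mul, hPA, map_subtype_map_intCast]
    congr 1
    ext n
    simp [PowerSeries.coeff_C_mul]
  have hcg0 : PowerSeries.coeff 0 cg = 0 := by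
    rw [hcg, map_sub, PowerSeries.coeff_C_mul, hPA, PowerSeries.coeff_map, hP0]
    simp [ha₀]
  have hg0 : (qExpansion 1 (⇑g)).coeff 0 = 0 := by
    rw [hg, PowerSeries.coeff_map, hcg0]
    simp
  have hfac := qExpansion_eq_qExpansion_discriminant_mul g hg0
  set g' : ModularForm 𝒮ℒ ((k : ℤ) - 12) := CuspForm.discriminantEquiv (toCuspForm g hg0)
    with hg'
  set sh : PowerSeries A := PowerSeries.mk fun n => PowerSeries.coeff (n + 1) cg with hsh
  set UA : PowerSeries A := U.map (Int.castRingHom A) with hUA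
  set VA : PowerSeries A := V.map (Int.castRingHom A) with hVA
  have hUVA : UA * VA = 1 := by
    rw [hUA, hVA, ← map_mul, hUV, map_one]
  set c' : PowerSeries A := sh * VA with hc'
  have hcgX : cg = PowerSeries.X * sh := by
    ext n
    rcases n with _ | n
    · simp [hcg0]
    · rw [PowerSeries.coeff_succ_X_mul, hsh, PowerSeries.coeff_mk]
  have hcgc' : cg = PowerSeries.X * UA * c' := by
    rw [hc', hcgX]
    calc PowerSeries.X * sh = PowerSeries.X * sh * (UA * VA) := by rw [hUVA, mul_one]
      _ = PowerSeries.X * UA * (sh * VA) := by ring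
  -- q-expansion of g'
  have hg'c : qExpansion 1 (⇑g') = c'.map A.subtype := by
    have hD : qExpansion 1 ModularForm.discriminant
        = (PowerSeries.X * UA).map A.subtype := by
      rw [qExpansion_discriminant_eq_deltaSeries, hX, map_mul, map_mul, hUA,
        map_subtype_map_intCast]
      simp
    have h1 : (PowerSeries.X * UA).map A.subtype * qExpansion 1 (⇑g')
        = (PowerSeries.X * UA).map A.subtype * c'.map A.subtype := by
      calc (PowerSeries.X * UA).map A.subtype * qExpansion 1 (⇑g')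
          = qExpansion 1 ModularForm.discriminant * qExpansion 1 (⇑g') := by rw [hD]
        _ = qExpansion 1 (⇑g) := hfac.symm
        _ = cg.map A.subtype := hg
        _ = (PowerSeries.X * UA * c').map A.subtype := by rw [← hcgc']
        _ = _ := by rw [map_mul]
    have hne : (PowerSeries.X * UA).map A.subtype ≠ 0 := by
      intro h0
      have hXU : PowerSeries.X * UA = 0 := by
        apply map_subtype_injective A
        rw [h0]; simp
      have : (PowerSeries.X : PowerSeries A) = 0 := by
        calc (PowerSeries.X : PowerSeries A) = PowerSeries.X * (UA * VA) := by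
              rw [hUVA, mul_one]
          _ = (PowerSeries.X * UA) * VA := by ring
          _ = 0 := by rw [hXU, zero_mul]
      exact PowerSeries.X_ne_zero this
    exact mul_left_cancel₀ hne h1
  -- the reduction of c' vanishes
  have hc'φ : c'.map φ = 0 := by
    rcases lt_or_ge k 12 with hk12 | hk12
    · have hz : g' = 0 :=
        rank_zero_iff_forall_zero.mp (levelOne_neg_weight_rank_zero (by omega)) g'
      have : c' = 0 := by
        apply map_subtype_injective A
        rw [← hg'c, hz]
        simp [qExpansion_zero]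
      rw [this]; simp
    · have hw : (k : ℤ) - 12 = ((k - 12 : ℕ) : ℤ) := by omega
      refine ih (k - 12) (by omega) (ModularForm.mcast hw g' rfl) c' ?_ ?_
      · rw [ModularForm.qExpansion_mcast]
        exact hg'c
      · intro n hn
        rw [hc', PowerSeries.coeff_mul, map_sum]
        refine Finset.sum_eq_zero fun ij hij => ?_
        rw [map_mul]
        have hi : ij.1 ≤ n := by
          have := Finset.HasAntidiagonal.mem_antidiagonal.mp hij
          omega
        have hsh0 : φ (PowerSeries.coeff ij.1 sh) = 0 := by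
          rw [hsh, PowerSeries.coeff_mk, hcg, map_sub, PowerSeries.coeff_C_mul, map_sub,
            map_mul, hc0, zero_mul, sub_zero]
          exact hvan _ (by omega)
        rw [hsh0, zero_mul]
  -- conclusion
  have hcφ : c = cg + PowerSeries.C a₀ * PA := by rw [hcg]; ring
  rw [hcφ, map_add, map_mul, hcgc', map_mul, hc'φ, mul_zero, zero_add, PowerSeries.map_C, hc0,
    map_zero, zero_mul]


/-- **Level-one Sturm bound modulo a prime.** -/
theorem sturmMod : SturmModStatement := by
  intro A κ _ φ k f c hfc hne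
  by_contra hlt
  rw [not_le] at hlt
  apply hne
  apply sturm_core A κ φ k f c hfc
  intro n hn
  have hn' : (n : ℕ∞) < (c.map φ).order := by
    by_contra h
    rw [not_lt] at h
    have h1 : 12 * (c.map φ).order ≤ 12 * (n : ℕ∞) := by gcongr
    have h2 : (12 : ℕ∞) * (n : ℕ∞) ≤ (k : ℕ∞) := by exact_mod_cast hn
    exact absurd (lt_of_lt_of_le hlt (h1.trans h2)) (lt_irrefl _)
  have := PowerSeries.coeff_of_lt_order n hn'
  simpa using this

end Fermat.Agent.H6.S16UB
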