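/-
P-S16 / UB-NORM (helper6): the norm machine.
Main result: `Fermat.Agent.H6.S16UB.normMachine (hS : SturmModStatement) : NormMachineStatement`.
Reusable: `HasExp.periodic`, `HasExp.analyticAt`, `HasExp.qExpansion_eq`,
`plain_qExpansion_coeff_unique`, `prod_expansion`, `qExpansion_dilate`,
`cosetSpace`, `cosetOf`, `card_cosetSpace`.
-/
import Mathlib
import Fermat.Agent.H6.S16UB.Interfaces

set_option autoImplicit false

open UpperHalfPlane ModularForm SlashInvariantForm CongruenceSubgroup Function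
open scoped MatrixGroups ModularForm Real Manifold

namespace Fermat.Agent.H6.S16UB

/-- `qParam h` is `h`-periodic. -/
theorem qParam_add_period (h : ℝ) (hh : h ≠ 0) (w : ℂ) :
    Periodic.qParam h (w + h) = Periodic.qParam h w := by
  simp only [Periodic.qParam]
  have : 2 * (π : ℂ) * Complex.I * (w + h) / h = 2 * π * Complex.I * w / h + 2 * π * Complex.I := by
    have hh' : (h : ℂ) ≠ 0 := by exact_mod_cast hh
    field_simp
  rw [this, Complex.exp_add, Complex.exp_two_pi_mul_I, mul_one]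

/-- Uniqueness of expansion coefficients, for plain functions. -/
theorem plain_qExpansion_coeff_unique {h : ℝ} {f : ℍ → ℂ} {c : ℕ → ℂ} (hh : 0 < h)
    (hfanalytic : AnalyticAt ℂ (cuspFunction h f) 0)
    (hf : ∀ τ : ℍ, HasSum (fun m ↦ c m • Periodic.qParam h τ ^ m) (f τ)) (m : ℕ) :
    c m = (qExpansion h f).coeff m := by
  have h1 := (hasFPowerSeriesOnBall_cuspFunction hh hfanalytic hf).hasFPowerSeriesAt
  have h2 : HasFPowerSeriesAt (cuspFunction h f)
      (FormalMultilinearSeries.ofScalars ℂ fun m ↦ (qExpansion h f).coeff m) 0 := by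
    simpa [qExpansion_coeff, div_eq_mul_inv, mul_comm] using hfanalytic.hasFPowerSeriesAt
  simpa [FormalMultilinearSeries.coeff_ofScalars] using
    congr_arg (FormalMultilinearSeries.coeff · m) (h1.eq_formalMultilinearSeries h2)

/-- A function with an expansion in `e(z / h)` is `h`-periodic. -/
theorem HasExp.periodic {h : ℕ} (hh : 0 < h) {F : ℍ → ℂ} {b : ℕ → ℂ} (hF : HasExp h F b) :
    Periodic (F ∘ ofComplex) ((h : ℝ) : ℂ) := by
  intro w
  by_cases hw : 0 < w.im
  · have hw' : 0 < (w + ((h : ℝ) : ℂ)).im := by simpa using hw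
    simp only [comp_apply, ofComplex_apply_of_im_pos hw', ofComplex_apply_of_im_pos hw]
    have h1 := hF ⟨w + ((h : ℝ) : ℂ), hw'⟩
    have h2 := hF ⟨w, hw⟩
    have hh0 : (h : ℝ) ≠ 0 := by exact_mod_cast hh.ne'
    simp only [qParam_add_period (h : ℝ) hh0] at h1
    exact h1.unique h2
  · rw [not_lt] at hw
    have hw' : (w + ((h : ℝ) : ℂ)).im ≤ 0 := by simpa using hw
    rw [comp_apply, comp_apply, ofComplex_apply_eq_of_im_nonpos hw' hw]

theorem HasExp.hasSum_smul {h : ℕ} {F : ℍ → ℂ} {b : ℕ → ℂ} (hF : HasExp h F b) (τ : ℍ) :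
    HasSum (fun m ↦ b m • Periodic.qParam (h : ℝ) τ ^ m) (F τ) := by
  simpa [smul_eq_mul] using hF τ

theorem HasExp.analyticAt {h : ℕ} (hh : 0 < h) {F : ℍ → ℂ} {b : ℕ → ℂ} (hF : HasExp h F b)
    (hhol : MDiff F) : AnalyticAt ℂ (cuspFunction (h : ℝ) F) 0 :=
  analyticAt_cuspFunction_zero (by exact_mod_cast hh) (hF.periodic hh) hhol
    (isBoundedAtImInfty_of_hasSum_qExpansion (by exact_mod_cast hh) hF.hasSum_smul)

theorem HasExp.qExpansion_eq {h : ℕ} (hh : 0 < h) {F : ℍ → ℂ} {b : ℕ → ℂ} (hF : HasExp h F b)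
    (hhol : MDiff F) : qExpansion (h : ℝ) F = PowerSeries.mk b := by
  ext m
  rw [PowerSeries.coeff_mk]
  exact (plain_qExpansion_coeff_unique (by exact_mod_cast hh) (hF.analyticAt hh hhol)
    hF.hasSum_smul m).symm

/-- Expansion of a finite product. -/
theorem prod_expansion {h : ℝ} (hh : 0 < h) {ι : Type*} (s : Finset ι) (F : ι → ℍ → ℂ)
    (hA : ∀ i ∈ s, AnalyticAt ℂ (cuspFunction h (F i)) 0) :
    AnalyticAt ℂ (cuspFunction h (∏ i ∈ s, F i)) 0 ∧
      qExpansion h (∏ i ∈ s, F i) = ∏ i ∈ s, qExpansion h (F i) := by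
  classical
  induction s using Finset.induction_on with
  | empty =>
    simp only [Finset.prod_empty]
    refine ⟨?_, qExpansion_one h⟩
    have hper : Periodic ((1 : ℍ → ℂ) ∘ ofComplex) (h : ℂ) := fun w => by simp
    have hhol : MDiff (1 : ℍ → ℂ) := mdifferentiable_const
    have hbdd : IsBoundedAtImInfty (1 : ℍ → ℂ) := by
      have : (1 : ℍ → ℂ) = fun _ => (1 : ℂ) := rfl
      rw [this]
      exact Filter.const_boundedAtFilter _ _
    exact analyticAt_cuspFunction_zero hh hper hhol hbdd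
  | insert a s ha ih =>
    have hAa := hA a (Finset.mem_insert_self a s)
    obtain ⟨hAs, hqs⟩ := ih fun i hi => hA i (Finset.mem_insert_of_mem hi)
    rw [Finset.prod_insert ha, Finset.prod_insert ha]
    refine ⟨?_, ?_⟩
    · rw [cuspFunction_mul hAa.continuousAt hAs.continuousAt]
      exact hAa.mul hAs
    · rw [qExpansion_mul hAa hAs, hqs]


section Machine

variable (Γ : Subgroup SL(2, ℤ)) (k : ℕ) (Y : ModularForm Γ (k : ℤ))

/-- The coset space `SL₂(ℤ) / Γ` inside `GL₂(ℝ)`. -/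
abbrev cosetSpace : Type :=
  (𝒮ℒ ⧸ ((Γ : Subgroup (GL (Fin 2) ℝ)).subgroupOf 𝒮ℒ))

theorem card_cosetSpace : Nat.card (cosetSpace Γ) = Γ.index := by
  rw [← Subgroup.index_eq_card]
  show (Γ : Subgroup (GL (Fin 2) ℝ)).relIndex 𝒮ℒ = _
  rw [MonoidHom.range_eq_map]
  show (Subgroup.map (Matrix.SpecialLinearGroup.mapGL ℝ) Γ).relIndex _ = _
  rw [Subgroup.relIndex_map_map_of_injective _ _ Matrix.SpecialLinearGroup.mapGL_injective,
    Subgroup.relIndex_top_right]

/-- The coset of `γ⁻¹`. -/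
def cosetOf (γ : SL(2, ℤ)) : cosetSpace Γ :=
  QuotientGroup.mk (⟨Matrix.SpecialLinearGroup.mapGL ℝ γ⁻¹, ⟨γ⁻¹, rfl⟩⟩ : 𝒮ℒ)

theorem quotientFunc_cosetOf (γ : SL(2, ℤ)) :
    quotientFunc Y (cosetOf Γ γ) = ⇑Y ∣[(k : ℤ)] γ := by
  show quotientFunc Y ⟦_⟧ = _
  rw [quotientFunc_mk, ModularForm.SL_slash]
  congr 1
  simp only [map_inv, inv_inv]
  rfl

theorem exists_cosetOf (q : cosetSpace Γ) : ∃ γ : SL(2, ℤ), cosetOf Γ γ = q := by
  induction q using Quotient.inductionOn with
  | h r =>
    obtain ⟨r, γ, rfl⟩ := r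
    refine ⟨γ⁻¹, ?_⟩
    show QuotientGroup.mk _ = QuotientGroup.mk _
    congr 1
    ext1
    simp

theorem cosetOf_eq_imp (γ γ' : SL(2, ℤ)) (h : cosetOf Γ γ = cosetOf Γ γ') : γ * γ'⁻¹ ∈ Γ := by
  rw [cosetOf, cosetOf, QuotientGroup.eq, Subgroup.mem_subgroupOf] at h
  simp only [Subgroup.coe_mul, InvMemClass.coe_inv, map_inv, inv_inv] at h
  rw [← map_inv, ← map_mul] at h
  obtain ⟨δ, hδ, hδe⟩ := h
  have := Matrix.SpecialLinearGroup.mapGL_injective hδe
  rw [← this]
  exact hδ

theorem natCast_mem_strictPeriods_SL (h : ℕ) : (h : ℝ) ∈ (𝒮ℒ).strictPeriods := by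
  have := AddSubgroup.nsmul_mem _ one_mem_strictPeriods_SL h
  simpa using this

theorem qParam_pow_eq (h : ℕ) (hh : 0 < h) (z : ℂ) :
    Periodic.qParam (h : ℝ) z ^ h = Periodic.qParam 1 z := by
  simp only [Periodic.qParam]
  rw [← Complex.exp_nat_mul]
  congr 1
  have : (h : ℂ) ≠ 0 := by exact_mod_cast hh.ne'
  push_cast
  field_simp

/-- The expansion of a level one form in `e(z / h)` is the dilation of its `q`-expansion. -/
theorem qExpansion_dilate {K : ℤ} (N : ModularForm 𝒮ℒ K) (h : ℕ) (hh : 0 < h) (m : ℕ) :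
    (qExpansion (h : ℝ) (⇑N)).coeff m =
      if h ∣ m then (qExpansion 1 (⇑N)).coeff (m / h) else 0 := by
  set c : ℕ → ℂ := fun n => (qExpansion 1 (⇑N)).coeff n with hc
  set d : ℕ → ℂ := fun m => if h ∣ m then c (m / h) else 0 with hd
  have key : ∀ τ : ℍ, HasSum (fun m ↦ d m • Periodic.qParam (h : ℝ) τ ^ m) (N τ) := by
    intro τ
    have h1 := ModularForm.hasSum_qExpansion (f := N) one_pos one_mem_strictPeriods_SL τ
    have hinj : Function.Injective (fun n : ℕ => h * n) := fun a b hab =>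
      Nat.eq_of_mul_eq_mul_left hh hab
    rw [← hinj.hasSum_iff]
    · convert h1 using 1
      funext n
      simp only [comp_apply, hd, hc, Nat.dvd_mul_right, if_true, Nat.mul_div_cancel_left _ hh,
        smul_eq_mul, pow_mul, qParam_pow_eq h hh]
    · intro x hx
      have : ¬ h ∣ x := by
        rintro ⟨y, rfl⟩
        exact hx ⟨y, rfl⟩
      simp [hd, this]
  exact (ModularFormClass.qExpansion_coeff_unique (by exact_mod_cast hh)
    (natCast_mem_strictPeriods_SL h) key m).symm


theorem map_subtype_inj (A : Subring ℂ) :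
    Function.Injective (PowerSeries.map A.subtype) := by
  intro x y h
  ext n
  have := congrArg (PowerSeries.coeff n) h
  simpa using this

/-- **The norm machine.** -/
theorem normMachine (hS : SturmModStatement) : NormMachineStatement := by
  intro Γ _ k Y h hh A κ _ φ b hexp hne S hS'
  classical
  have hh' : (0 : ℝ) < (h : ℝ) := by exact_mod_cast hh
  -- holomorphy of translates
  have hhol : ∀ γ : SL(2, ℤ), MDiff (⇑Y ∣[(k : ℤ)] γ) := fun γ => by
    rw [ModularForm.SL_slash, ← ModularForm.coe_translate]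
    exact (ModularForm.translate Y _).holo'
  have hA : ∀ γ, AnalyticAt ℂ (cuspFunction (h : ℝ) (⇑Y ∣[(k : ℤ)] γ)) 0 :=
    fun γ => (hexp γ).analyticAt hh (hhol γ)
  have hq : ∀ γ, qExpansion (h : ℝ) (⇑Y ∣[(k : ℤ)] γ) = (b γ).map A.subtype := fun γ => by
    rw [(hexp γ).qExpansion_eq hh (hhol γ)]
    ext n
    simp
  -- the norm
  let _ : Fintype (cosetSpace Γ) := Fintype.ofFinite _
  set N := ModularForm.norm 𝒮ℒ Y with hN
  have hNcoe : (⇑N : ℍ → ℂ) = ∏ q : cosetSpace Γ, quotientFunc Y q := by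
    rw [hN, ModularForm.coe_norm]
  -- choose γ for each coset
  choose g hg using exists_cosetOf Γ
  have hfac : ∀ q, quotientFunc Y q = ⇑Y ∣[(k : ℤ)] (g q) := fun q => by
    conv_lhs => rw [← hg q]
    exact quotientFunc_cosetOf Γ k Y (g q)
  -- product expansion
  have hprod := prod_expansion (h := (h : ℝ)) hh' Finset.univ
    (fun q : cosetSpace Γ => quotientFunc Y q) (fun q _ => by rw [hfac q]; exact hA _)
  set PA : PowerSeries A := ∏ q, b (g q) with hPA
  have hNq : qExpansion (h : ℝ) (⇑N) = PA.map A.subtype := by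
    rw [hNcoe, hprod.2, hPA, map_prod]
    refine Finset.prod_congr rfl fun q _ => ?_
    rw [hfac q, hq]
  set cA : PowerSeries A := PowerSeries.mk fun n => PowerSeries.coeff (h * n) PA with hcA
  have hcN : qExpansion 1 (⇑N) = cA.map A.subtype := by
    ext n
    have := qExpansion_dilate N h hh (h * n)
    rw [if_pos (Nat.dvd_mul_right h n), Nat.mul_div_cancel_left _ hh, hNq] at this
    rw [← this]
    simp [hcA]
  have hPA0 : ∀ m, ¬ h ∣ m → PowerSeries.coeff m PA = 0 := by
    intro m hm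
    have := qExpansion_dilate N h hh m
    rw [if_neg hm, hNq, PowerSeries.coeff_map] at this
    exact Subtype.ext (by simpa using this)
  -- reductions
  have hPbar : PA.map φ = ∏ q, (b (g q)).map φ := by rw [hPA, map_prod]
  have hPne : PA.map φ ≠ 0 := by
    rw [hPbar]
    exact Finset.prod_ne_zero_iff.mpr fun q _ => hne _
  have hPord : (PA.map φ).order = ∑ q, ((b (g q)).map φ).order := by
    rw [hPbar, PowerSeries.order_prod]
  have hcne : cA.map φ ≠ 0 := by
    intro h0
    apply hPne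
    ext m
    by_cases hm : h ∣ m
    · obtain ⟨n, rfl⟩ := hm
      have := congrArg (PowerSeries.coeff n) h0
      simpa [hcA] using this
    · simp [hPA0 m hm]
  -- Sturm
  have hw : ((k : ℤ) * (Nat.card (cosetSpace Γ) : ℤ)) = ((k * Γ.index : ℕ) : ℤ) := by
    rw [card_cosetSpace]
    push_cast
    ring
  have hSt := hS A κ φ (k * Γ.index) (ModularForm.mcast hw N rfl) cA
    (by rw [ModularForm.qExpansion_mcast]; exact hcN) hcne
  -- order of the reduction of `PA`
  have hord : (PA.map φ).order ≤ h * (cA.map φ).order := by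
    have hcoeff := PowerSeries.coeff_order hcne
    have hfin : (cA.map φ).order = ((cA.map φ).order.toNat : ℕ∞) := by
      rw [ENat.natCast_toNat]
      exact (PowerSeries.order_finite_iff_ne_zero.mpr hcne).ne
    set d := (cA.map φ).order.toNat with hd
    have h2 : PowerSeries.coeff (h * d) (PA.map φ) ≠ 0 := by
      simpa [hcA] using hcoeff
    rw [hfin]
    exact_mod_cast PowerSeries.order_le _ h2
  -- sum over `S`
  have hb : ∀ γ, b (g (cosetOf Γ γ)) = b γ := by
    intro γ
    apply map_subtype_inj A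
    rw [← hq, ← hq, ← hfac, quotientFunc_cosetOf]
  have hsum : ∑ γ ∈ S, ((b γ).map φ).order ≤ ∑ q, ((b (g q)).map φ).order := by
    calc ∑ γ ∈ S, ((b γ).map φ).order
        = ∑ γ ∈ S, ((b (g (cosetOf Γ γ))).map φ).order := by simp [hb]
      _ = ∑ q ∈ S.image (cosetOf Γ), ((b (g q)).map φ).order := by
          rw [Finset.sum_image]
          intro x hx y hy hxy
          exact hS' x hx y hy (cosetOf_eq_imp Γ x y hxy)
      _ ≤ ∑ q, ((b (g q)).map φ).order :=
          Finset.sum_le_sum_of_subset (Finset.subset_univ _)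
  calc 12 * ∑ γ ∈ S, ((b γ).map φ).order
      ≤ 12 * (PA.map φ).order := by rw [hPord]; gcongr
    _ ≤ 12 * (h * (cA.map φ).order) := by gcongr
    _ = h * (12 * (cA.map φ).order) := by ring
    _ ≤ h * ((k * Γ.index : ℕ) : ℕ∞) := by gcongr
    _ = ((h * (k * Γ.index) : ℕ) : ℕ∞) := by push_cast; ring

end Machine

end Fermat.Agent.H6.S16UB
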