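/-
P-S16 (helper6): residue fields of the ring of algebraic integers.
`algInt : Subring ℂ` (all algebraic integers) and
`exists_residue ℓ hℓ : ∃ κ (_ : Field κ) (φ : algInt →+* κ), ∀ m : ℤ, φ m = 0 ↔ ℓ ∣ m`.
Use `A := algInt` and this `φ` in `SturmModStatement` / `NormMachineStatement`.
-/
import Mathlib

set_option autoImplicit false

namespace Fermat.Agent.H6.S16UB

/-- The ring of all algebraic integers, as a subring of `ℂ`. -/
noncomputable def algInt : Subring ℂ := (integralClosure ℤ ℂ).toSubring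

theorem mem_algInt_iff (x : ℂ) : x ∈ algInt ↔ IsIntegral ℤ x := Iff.rfl

theorem intCast_mem_algInt (m : ℤ) : (m : ℂ) ∈ algInt := intCast_mem algInt m

/-- A prime number is not a unit in the ring of algebraic integers. -/
theorem span_prime_ne_top (ℓ : ℕ) (hℓ : ℓ.Prime) :
    Ideal.span {((ℓ : ℤ) : algInt)} ≠ ⊤ := by
  intro h
  rw [Ideal.span_singleton_eq_top] at h
  obtain ⟨u, hu⟩ := h.exists_right_inv
  -- `u = 1 / ℓ` is an algebraic integer and rational, hence an integer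
  have hu' : ((ℓ : ℤ) : ℂ) * (u : ℂ) = 1 := by
    have := congrArg (fun x : algInt => (x : ℂ)) hu
    simpa using this
  have hℓ0 : ((ℓ : ℤ) : ℂ) ≠ 0 := by
    exact_mod_cast hℓ.ne_zero
  have hueq : (u : ℂ) = algebraMap ℚ ℂ (1 / (ℓ : ℚ)) := by
    have : (u : ℂ) = 1 / ((ℓ : ℤ) : ℂ) := by
      field_simp
      linear_combination hu'
    rw [this]
    simp
  have hint : IsIntegral ℤ (algebraMap ℚ ℂ (1 / (ℓ : ℚ))) := by
    rw [← hueq]
    exact u.2
  have hint' : IsIntegral ℤ (1 / (ℓ : ℚ)) :=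
    (isIntegral_algebraMap_iff (algebraMap ℚ ℂ).injective).mp hint
  obtain ⟨n, hn⟩ := IsIntegrallyClosed.isIntegral_iff.mp hint'
  have hn' : (n : ℚ) * ℓ = 1 := by
    have h1 : (algebraMap ℤ ℚ n) = 1 / (ℓ : ℚ) := hn
    have hℓq : (ℓ : ℚ) ≠ 0 := by exact_mod_cast hℓ.ne_zero
    rw [show (n : ℚ) = algebraMap ℤ ℚ n from rfl, h1]
    field_simp
  have hn'' : n * (ℓ : ℤ) = 1 := by exact_mod_cast hn'
  have : (ℓ : ℤ) ∣ 1 := Dvd.intro_left n hn''
  have h1 : (ℓ : ℤ) = 1 ∨ (ℓ : ℤ) = -1 := Int.isUnit_iff.mp (isUnit_of_dvd_one this)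
  have h2 := hℓ.two_le
  omega

/-- **Residue fields.** For every prime `ℓ` there is a ring homomorphism `φ` from the ring of
algebraic integers to a field `κ` with `φ ℓ = 0`; an integer is killed by `φ` iff it is divisible
by `ℓ`. -/
theorem exists_residue (ℓ : ℕ) (hℓ : ℓ.Prime) :
    ∃ (κ : Type) (_ : Field κ) (φ : algInt →+* κ),
      ∀ m : ℤ, φ (m : algInt) = 0 ↔ (ℓ : ℤ) ∣ m := by
  obtain ⟨P, hPmax, hP⟩ := Ideal.exists_le_maximal _ (span_prime_ne_top ℓ hℓ)
  let _ : Field (algInt ⧸ P) := Ideal.Quotient.field P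
  refine ⟨algInt ⧸ P, inferInstance, Ideal.Quotient.mk P, fun m => ?_⟩
  have hℓP : ((ℓ : ℤ) : algInt) ∈ P := hP (Ideal.subset_span rfl)
  constructor
  · intro hm
    rw [Ideal.Quotient.eq_zero_iff_mem] at hm
    by_contra hdvd
    have hcop : IsCoprime (ℓ : ℤ) m := by
      rw [Int.isCoprime_iff_gcd_eq_one]
      have hp : Prime (ℓ : ℤ) := Nat.prime_iff_prime_int.mp hℓ
      have := (Int.isCoprime_iff_gcd_eq_one).mp ((Prime.coprime_iff_not_dvd hp).mpr hdvd)
      exact this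
    obtain ⟨a, b, hab⟩ := hcop
    have h1 : (1 : algInt) ∈ P := by
      have : (1 : algInt) = (a : algInt) * ((ℓ : ℤ) : algInt) + (b : algInt) * (m : algInt) := by
        have := congrArg (fun x : ℤ => (x : algInt)) hab
        simp only [Int.cast_add, Int.cast_mul, Int.cast_one] at this
        exact this.symm
      rw [this]
      exact P.add_mem (P.mul_mem_left _ hℓP) (P.mul_mem_left _ hm)
    exact hPmax.ne_top ((Ideal.eq_top_iff_one P).mpr h1)
  · rintro ⟨c, rfl⟩
    rw [Ideal.Quotient.eq_zero_iff_mem]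
    push_cast
    exact P.mul_mem_right _ hℓP

end Fermat.Agent.H6.S16UB
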