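/-
P-S16 (helper6): the unconditional norm machine and Sturm bound.
-/
import Fermat.Agent.H6.S16UB.SturmMod
import Fermat.Agent.H6.S16UB.NormMachine
import Fermat.Agent.H6.S16UB.Residue

set_option autoImplicit false

namespace Fermat.Agent.H6.S16UB

/-- The norm machine, unconditionally. -/
theorem normMachine_holds : NormMachineStatement := normMachine sturmMod

end Fermat.Agent.H6.S16UB
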